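import Fermat.Agent.LT.T6.H706.OrdBasic

/-!
# Row LT, tower T6, leaf T6.18f.5 `OrdC179` (helper706): the double coset `Ω = U(m) γ₀ U(m)`

OFF-MAIN.

* `Om706 m γ₀` = the double coset `U(m) γ₀ U(m)`, `ind706 m γ₀` = its indicator function;
* `ind_biInv706`, `ind_finSupp706`: the indicator is bi-`U(m)`-invariant of finite support;
* `om_stable706`: `Ω + ϖ^L M₂(𝒪) = Ω` for `L` large (`m ≥ 1`).
-/

set_option autoImplicit false

open scoped Matrix

noncomputable section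

namespace Fermat.Agent.LT.T6.H706

open Fermat.Agent.LT.T6 Fermat.Agent.LT.T6.H783 Fermat.Agent.LT.T6.H125
  Fermat.Agent.LT.T6.H179

variable {k : Type} [Field k] [Valued k Γ₀]

/-- The double coset `Ω = U(m) γ₀ U(m)`. -/
def Om706 (m : ℕ) (γ₀ : GL (Fin 2) k) (y : GL (Fin 2) k) : Prop :=
  ∃ u u' : GL (Fin 2) k, InU m u ∧ InU m u' ∧ y = u * γ₀ * u'

open Classical in
/-- The indicator function of `Ω = U(m) γ₀ U(m)`. -/
def ind706 (m : ℕ) (γ₀ : GL (Fin 2) k) : GL (Fin 2) k → ℂ :=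
  fun y => if Om706 m γ₀ y then 1 else 0

theorem om_self706 (m : ℕ) (γ₀ : GL (Fin 2) k) : Om706 m γ₀ γ₀ :=
  ⟨1, 1, inU_one706 m, inU_one706 m, by group⟩

theorem om_mul706 {m : ℕ} {γ₀ y u u' : GL (Fin 2) k} (hy : Om706 m γ₀ y) (hu : InU m u)
    (hu' : InU m u') : Om706 m γ₀ (u * y * u') := by
  obtain ⟨w, w', hw, hw', rfl⟩ := hy
  exact ⟨u * w, w' * u', inU_mul706 hu hw, inU_mul706 hw' hu', by group⟩

theorem om_mul_iff706 {m : ℕ} {γ₀ y u u' : GL (Fin 2) k} (hu : InU m u) (hu' : InU m u') :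
    Om706 m γ₀ (u * y * u') ↔ Om706 m γ₀ y := by
  refine ⟨fun h => ?_, fun h => om_mul706 h hu hu'⟩
  have := om_mul706 h (inU_inv706 hu) (inU_inv706 hu')
  have e : u⁻¹ * (u * y * u') * u'⁻¹ = y := by group
  rwa [e] at this

theorem om_inv706 {m : ℕ} {γ₀ y : GL (Fin 2) k} (hy : Om706 m γ₀ y) : Om706 m γ₀⁻¹ y⁻¹ := by
  obtain ⟨w, w', hw, hw', rfl⟩ := hy
  exact ⟨w'⁻¹, w⁻¹, inU_inv706 hw', inU_inv706 hw, by group⟩

theorem ind_eq_of_iff706 {m : ℕ} {γ₀ y z : GL (Fin 2) k}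
    (h : Om706 m γ₀ y ↔ Om706 m γ₀ z) : ind706 m γ₀ y = ind706 m γ₀ z := by
  unfold ind706
  by_cases hy : Om706 m γ₀ y
  · simp [hy, h.1 hy]
  · have hz : ¬ Om706 m γ₀ z := fun hz => hy (h.2 hz)
    simp [hy, hz]

theorem ind_biInv706 (m : ℕ) (γ₀ : GL (Fin 2) k) : IsBiInv (InU m) (ind706 m γ₀) := by
  intro u u' g hu hu'
  exact ind_eq_of_iff706 (om_mul_iff706 hu hu')

theorem ind_ne_zero_iff706 {m : ℕ} {γ₀ y : GL (Fin 2) k} :
    ind706 m γ₀ y ≠ 0 ↔ Om706 m γ₀ y := by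
  unfold ind706
  by_cases h : Om706 m γ₀ y
  · simp [h]
  · simp [h]

/-- The entries of the elements of `Ω` are bounded by those of `γ₀`. -/
theorem om_entry706 {m : ℕ} {γ₀ y : GL (Fin 2) k} {B : ℤ}
    (hB : ∀ i j, Valued.v ((γ₀ : Matrix (Fin 2) (Fin 2) k) i j) ≤ WithZero.exp B)
    (hy : Om706 m γ₀ y) (i j : Fin 2) :
    Valued.v ((y : Matrix (Fin 2) (Fin 2) k) i j) ≤ WithZero.exp B := by
  obtain ⟨w, w', hw, hw', rfl⟩ := hy
  rw [Matrix.GeneralLinearGroup.coe_mul, Matrix.GeneralLinearGroup.coe_mul]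
  have h1 := v_mul_entry125 (v_mul_entry125 (inU_entry125 hw) hB) (inU_entry125 hw') i j
  rwa [one_mul, mul_one] at h1

/-- The determinant on `Ω`. -/
theorem om_det706 {m : ℕ} {γ₀ y : GL (Fin 2) k} (hy : Om706 m γ₀ y) :
    Valued.v (y : Matrix (Fin 2) (Fin 2) k).det
      = Valued.v (γ₀ : Matrix (Fin 2) (Fin 2) k).det := by
  obtain ⟨w, w', hw, hw', rfl⟩ := hy
  rw [Matrix.GeneralLinearGroup.coe_mul, Matrix.GeneralLinearGroup.coe_mul, Matrix.det_mul,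
    Matrix.det_mul, map_mul, map_mul, inU_det706 hw, inU_det706 hw', one_mul, mul_one]

/-- The indicator of `Ω` has finite support modulo `U(m)`. -/
theorem ind_finSupp706 {q : ℕ} (hk : IsLocalField k q) (m : ℕ) (γ₀ : GL (Fin 2) k) :
    HasFinSupp (InU m) (ind706 m γ₀) := by
  obtain ⟨B, -, hB⟩ := exists_entry_bound706 (γ₀ : Matrix (Fin 2) (Fin 2) k)
  have hd0 : Valued.v (γ₀ : Matrix (Fin 2) (Fin 2) k).det ≠ 0 :=
    (Valuation.ne_zero_iff _).2 (det_ne_zero706 γ₀)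
  obtain ⟨F, hF⟩ := exists_fin_cosets706 hk B
    (-(WithZero.log (Valued.v (γ₀ : Matrix (Fin 2) (Fin 2) k).det))) m
  refine ⟨F, fun g hg => ?_⟩
  have hΩ := ind_ne_zero_iff706.1 hg
  refine hF g (om_entry706 hB hΩ) ?_
  rw [om_det706 hΩ, neg_neg, WithZero.exp_log hd0]

/-- **Stability of `Ω`**: an element of `GL₂(k)` which is close to an element of `Ω` lies in
`Ω` (`m ≥ 1`). -/
theorem om_stable706 {m : ℕ} (hm : 1 ≤ m) {γ₀ y z : GL (Fin 2) k} {B' L : ℤ}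
    (hB' : ∀ i j, Valued.v (((γ₀⁻¹ : GL (Fin 2) k) : Matrix (Fin 2) (Fin 2) k) i j)
      ≤ WithZero.exp B')
    (hL : B' + (m : ℤ) ≤ L) (hy : Om706 m γ₀ y)
    (hz : ∀ i j, Valued.v ((z : Matrix (Fin 2) (Fin 2) k) i j
      - (y : Matrix (Fin 2) (Fin 2) k) i j) ≤ WithZero.exp (-L)) :
    Om706 m γ₀ z := by
  have hyinv := om_entry706 hB' (om_inv706 hy)
  have hw : InU m (y⁻¹ * z) := by
    apply inU_of_sub_one706 hm
    intro i j
    have h1 : ((y⁻¹ * z : GL (Fin 2) k) : Matrix (Fin 2) (Fin 2) k) - 1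
        = ((y⁻¹ : GL (Fin 2) k) : Matrix (Fin 2) (Fin 2) k)
          * ((z : Matrix (Fin 2) (Fin 2) k) - (y : Matrix (Fin 2) (Fin 2) k)) := by
      rw [mul_sub, ← Units.val_mul, ← Units.val_mul, inv_mul_cancel, Units.val_one]
    have h2 : ∀ i j, Valued.v (((z : Matrix (Fin 2) (Fin 2) k)
        - (y : Matrix (Fin 2) (Fin 2) k)) i j) ≤ WithZero.exp (-L) := by
      intro i j
      rw [Matrix.sub_apply]
      exact hz i j
    have h3 := v_mul_entry125 hyinv h2 i j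
    rw [← h1, Matrix.sub_apply] at h3
    refine h3.trans ?_
    rw [← WithZero.exp_add]
    exact WithZero.exp_le_exp.2 (by omega)
  have := om_mul706 hy (inU_one706 m) hw
  have e : 1 * y * (y⁻¹ * z) = z := by group
  rwa [e] at this

end Fermat.Agent.LT.T6.H706

end
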