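import Fermat.Agent.LT.T6.H706.OrdCent
import Fermat.Agent.LT.T6.H706.OrdOmega

/-!
# Row LT, tower T6, leaf T6.18f.5 `OrdC179` (helper706, registry row 1242)

OFF-MAIN.  `ord_of706 : NormalFormC179 → OrbSumExC → OrbSumUniqC → OrdC179`, the Prop `OrdC179`
VERBATIM as in `LT/T6/H179/LocRegSpec.lean` (helper179, sha256 4a0ec3cb).

`f₀` = the indicator of `Ω = U(1) γ₀ U(1)`, `κ = O_{γ₀}(f₀)` (exists by `OrbSumExC`).

* `γ` near `γ₀` is conjugate to `γ₁ = a + b γ₀`, `(a, b)` near `(0, 1)` (`NormalFormC179`);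
* `y ↦ a + b y` is a bijection of the class of `γ₀` onto the class of `γ₁` which commutes with
  conjugation, has the same centralisers and preserves `Ω` (`om_stable706`); so a system of
  representatives for `O_{γ₀}(f₀)` is mapped to one for `O_{γ₁}(f₀)`, with the same sum
  (`transport706`); `OrbSumUniqC` gives `c = κ`;
* `κ ≠ 0`: the terms are `≥ 0`, and the term of the class of `γ₀` is
  `[T^c : T^c ∩ U(1)] ≥ 1` (`cIndex_pos706`).
-/

set_option autoImplicit false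

open scoped Matrix

noncomputable section

namespace Fermat.Agent.LT.T6.H706

open Fermat.Agent.LT.T6 Fermat.Agent.LT.T6.H783 Fermat.Agent.LT.T6.H125
  Fermat.Agent.LT.T6.H179

variable {k : Type} [Field k] [Valued k Γ₀]

/-! ## Conjugation -/

omit [Valued k Γ₀] in
theorem conj_affine706 (x A : GL (Fin 2) k) (a b : k) :
    ((x⁻¹ : GL (Fin 2) k) : Matrix (Fin 2) (Fin 2) k)
        * (a • (1 : Matrix (Fin 2) (Fin 2) k) + b • (A : Matrix (Fin 2) (Fin 2) k))
        * (x : Matrix (Fin 2) (Fin 2) k)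
      = a • (1 : Matrix (Fin 2) (Fin 2) k)
        + b • ((x⁻¹ * A * x : GL (Fin 2) k) : Matrix (Fin 2) (Fin 2) k) := by
  have h1 : ((x⁻¹ : GL (Fin 2) k) : Matrix (Fin 2) (Fin 2) k) * (x : Matrix (Fin 2) (Fin 2) k)
      = 1 := by
    rw [← Matrix.GeneralLinearGroup.coe_mul, inv_mul_cancel]
    rfl
  rw [Matrix.GeneralLinearGroup.coe_mul, Matrix.GeneralLinearGroup.coe_mul, Matrix.mul_add,
    Matrix.add_mul, Matrix.mul_smul, Matrix.smul_mul, Matrix.mul_one, h1, Matrix.mul_smul,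
    Matrix.smul_mul]

omit [Valued k Γ₀] in
theorem isReg_conj706 {γ : GL (Fin 2) k} (h : IsReg γ) (x : GL (Fin 2) k) :
    IsReg (x * γ * x⁻¹) := by
  unfold IsReg disc at h ⊢
  have e : ((x * γ * x⁻¹ : GL (Fin 2) k) : Matrix (Fin 2) (Fin 2) k)
      = ((x : (Matrix (Fin 2) (Fin 2) k)ˣ) : Matrix (Fin 2) (Fin 2) k)
        * (γ : Matrix (Fin 2) (Fin 2) k)
        * ((x⁻¹ : (Matrix (Fin 2) (Fin 2) k)ˣ) : Matrix (Fin 2) (Fin 2) k) := by
    rw [Matrix.GeneralLinearGroup.coe_mul, Matrix.GeneralLinearGroup.coe_mul]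
  rw [e, Matrix.trace_units_conj, Matrix.det_units_conj]
  exact h

/-! ## Orbit sums only depend on the conjugacy class -/

theorem isOrbSum_conj706 {m : ℕ} {f : GL (Fin 2) k → ℂ} {δ : GL (Fin 2) k} {κ : ℂ}
    (h : IsOrbSum m f δ κ) (g : GL (Fin 2) k) : IsOrbSum m f (g * δ * g⁻¹) κ := by
  unfold IsOrbSum IsTwOrbSum IsOrbSumGen at h ⊢
  simp only [glAut_refl706] at h ⊢
  obtain ⟨R, h1, h2, h3, h4⟩ := h
  refine ⟨R, fun y hy => ?_, h2, fun y hy hfy => ?_, h4⟩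
  · obtain ⟨x, rfl⟩ := h1 y hy
    exact ⟨g * x, by group⟩
  · obtain ⟨x, rfl⟩ := hy
    exact h3 _ ⟨g⁻¹ * x, by group⟩ hfy

/-! ## Transport along `y ↦ a + b y` -/

/-- Transport of an orbit-sum representation along `y ↦ a + b y` (`b ≠ 0`), for a function which
is invariant under this map on the class of `γ₀`. -/
theorem transport706 {m : ℕ} {f : GL (Fin 2) k → ℂ} {γ₀ γ₁ : GL (Fin 2) k} {a b : k}
    (hb : b ≠ 0)
    (hγ₁ : (γ₁ : Matrix (Fin 2) (Fin 2) k)
      = a • (1 : Matrix (Fin 2) (Fin 2) k) + b • (γ₀ : Matrix (Fin 2) (Fin 2) k))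
    (hf : ∀ y z : GL (Fin 2) k, (∃ x : GL (Fin 2) k, y = x⁻¹ * γ₀ * x) →
      (z : Matrix (Fin 2) (Fin 2) k)
        = a • (1 : Matrix (Fin 2) (Fin 2) k) + b • (y : Matrix (Fin 2) (Fin 2) k) →
      f z = f y)
    {κ : ℂ} (hκ : IsOrbSum m f γ₀ κ) : IsOrbSum m f γ₁ κ := by
  classical
  unfold IsOrbSum IsTwOrbSum IsOrbSumGen at hκ ⊢
  simp only [glAut_refl706] at hκ ⊢
  obtain ⟨R₀, h1, h2, h3, h4⟩ := hκ
  let Ψ : GL (Fin 2) k → GL (Fin 2) k := fun y =>
    if h : ∃ x : GL (Fin 2) k, y = x⁻¹ * γ₀ * x then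
      (Classical.choose h)⁻¹ * γ₁ * Classical.choose h else 1
  have hΨ : ∀ y : GL (Fin 2) k, (∃ x : GL (Fin 2) k, y = x⁻¹ * γ₀ * x) →
      ((Ψ y : GL (Fin 2) k) : Matrix (Fin 2) (Fin 2) k)
        = a • (1 : Matrix (Fin 2) (Fin 2) k) + b • (y : Matrix (Fin 2) (Fin 2) k) := by
    intro y hy
    have hx := Classical.choose_spec hy
    simp only [Ψ, dif_pos hy]
    rw [Matrix.GeneralLinearGroup.coe_mul, Matrix.GeneralLinearGroup.coe_mul, hγ₁,
      conj_affine706, ← hx]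
  have hΨcl : ∀ y : GL (Fin 2) k, (∃ x : GL (Fin 2) k, y = x⁻¹ * γ₀ * x) →
      ∃ x : GL (Fin 2) k, Ψ y = x⁻¹ * γ₁ * x := by
    intro y hy
    exact ⟨Classical.choose hy, by simp only [Ψ, dif_pos hy]⟩
  have hinj : ∀ y y' : GL (Fin 2) k, (∃ x : GL (Fin 2) k, y = x⁻¹ * γ₀ * x) →
      (∃ x : GL (Fin 2) k, y' = x⁻¹ * γ₀ * x) → Ψ y = Ψ y' → y = y' := by
    intro y y' hy hy' h
    have e := congrArg (fun z : GL (Fin 2) k => (z : Matrix (Fin 2) (Fin 2) k)) h
    simp only [hΨ y hy, hΨ y' hy'] at e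
    have e2 := add_left_cancel e
    have e3 : (y : Matrix (Fin 2) (Fin 2) k) = (y' : Matrix (Fin 2) (Fin 2) k) :=
      smul_right_injective _ hb e2
    exact Units.ext e3
  have hcl : ∀ (y u : GL (Fin 2) k), (∃ x : GL (Fin 2) k, y = x⁻¹ * γ₀ * x) →
      ∃ x : GL (Fin 2) k, u⁻¹ * y * u = x⁻¹ * γ₀ * x := by
    rintro y u ⟨x, rfl⟩
    exact ⟨x * u, by group⟩
  have hequiv : ∀ (y u : GL (Fin 2) k), (∃ x : GL (Fin 2) k, y = x⁻¹ * γ₀ * x) →
      Ψ (u⁻¹ * y * u) = u⁻¹ * Ψ y * u := by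
    intro y u hy
    apply Units.ext
    rw [hΨ _ (hcl y u hy)]
    rw [show ((u⁻¹ * Ψ y * u : GL (Fin 2) k) : Matrix (Fin 2) (Fin 2) k)
      = ((u⁻¹ : GL (Fin 2) k) : Matrix (Fin 2) (Fin 2) k)
        * ((Ψ y : GL (Fin 2) k) : Matrix (Fin 2) (Fin 2) k)
        * (u : Matrix (Fin 2) (Fin 2) k) from by
        rw [Matrix.GeneralLinearGroup.coe_mul, Matrix.GeneralLinearGroup.coe_mul]]
    rw [hΨ y hy, conj_affine706]
  have hsurj : ∀ z : GL (Fin 2) k, (∃ x : GL (Fin 2) k, z = x⁻¹ * γ₁ * x) →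
      ∃ y : GL (Fin 2) k, (∃ x : GL (Fin 2) k, y = x⁻¹ * γ₀ * x) ∧ Ψ y = z := by
    rintro z ⟨x, rfl⟩
    refine ⟨x⁻¹ * γ₀ * x, ⟨x, rfl⟩, ?_⟩
    apply Units.ext
    rw [hΨ _ ⟨x, rfl⟩]
    rw [show ((x⁻¹ * γ₁ * x : GL (Fin 2) k) : Matrix (Fin 2) (Fin 2) k)
      = ((x⁻¹ : GL (Fin 2) k) : Matrix (Fin 2) (Fin 2) k)
        * (γ₁ : Matrix (Fin 2) (Fin 2) k)
        * (x : Matrix (Fin 2) (Fin 2) k) from by
        rw [Matrix.GeneralLinearGroup.coe_mul, Matrix.GeneralLinearGroup.coe_mul]]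
    rw [hγ₁, conj_affine706]
  have hcent : ∀ y : GL (Fin 2) k, (∃ x : GL (Fin 2) k, y = x⁻¹ * γ₀ * x) →
      cIndex (InU m) (InTwCentC (RingEquiv.refl k)) (Ψ y)
        = cIndex (InU m) (InTwCentC (RingEquiv.refl k)) y := by
    intro y hy
    unfold cIndex
    congr 1
    ext c
    simp only [Set.mem_ofPred_eq]
    refine exists_congr fun t => and_congr_left fun _ => ?_
    rw [inTwCentC_refl_iff706, inTwCentC_refl_iff706]
    refine and_congr_left fun _ => ?_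
    rw [← hequiv y t hy]
    constructor
    · intro h
      exact hinj _ _ (hcl y t hy) hy h
    · intro h
      rw [h]
  have hfΨ : ∀ y : GL (Fin 2) k, (∃ x : GL (Fin 2) k, y = x⁻¹ * γ₀ * x) → f (Ψ y) = f y :=
    fun y hy => hf y (Ψ y) hy (hΨ y hy)
  refine ⟨R₀.image Ψ, ?_, ?_, ?_, ?_⟩
  · intro z hz
    obtain ⟨y, hy, rfl⟩ := Finset.mem_image.1 hz
    exact hΨcl y (h1 y hy)
  · intro z hz z' hz' hzz'
    obtain ⟨y, hy, rfl⟩ := Finset.mem_image.1 hz
    obtain ⟨y', hy', rfl⟩ := Finset.mem_image.1 hz'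
    obtain ⟨u, hu, huz⟩ := hzz'
    rw [← hequiv y u (h1 y hy)] at huz
    have e := hinj _ _ (h1 y' hy') (hcl y u (h1 y hy)) huz
    rw [h2 y hy y' hy' ⟨u, hu, e⟩]
  · intro z hz hfz
    obtain ⟨y, hy, rfl⟩ := hsurj z hz
    rw [hfΨ y hy] at hfz
    obtain ⟨y', hy', u, hu, rfl⟩ := h3 y hy hfz
    exact ⟨Ψ y', Finset.mem_image_of_mem Ψ hy', u, hu, hequiv y' u (h1 y' hy')⟩
  · rw [h4, Finset.sum_image]
    · refine Finset.sum_congr rfl fun y hy => ?_
      rw [hfΨ y (h1 y hy), hcent y (h1 y hy)]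
    · intro y hy y' hy' h
      exact hinj y y' (h1 y hy) (h1 y' hy') h

/-! ## The leaf -/

theorem isLocalExt_refl706 : IsLocalExt k k 1 1 (RingHom.id k) (RingEquiv.refl k) where
  cyc :=
    { pos := Nat.one_pos
      fix_i := fun _ => rfl
      fixed := fun y _ => ⟨y, rfl⟩
      order := fun _ => rfl
      faithful := fun m h0 h1 => absurd h1 (by omega) }
  e_pos := Nat.one_pos
  val_i := fun x => by simp
  val_s := fun _ => rfl

omit [Valued k Γ₀] in
theorem twNorm_one706 (δ : GL (Fin 2) k) : twNorm (RingEquiv.refl k) 1 δ = δ := by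
  simp [twNorm, twN]

/-- **T6.18f.5** `OrdC179` from `NormalFormC179`, `OrbSumExC`, `OrbSumUniqC`. -/
theorem ord_of706 (hNF : NormalFormC179) (hEx : OrbSumExC) (hUq : OrbSumUniqC) : OrdC179 := by
  intro k _ _ q hk γ₀ hreg
  classical
  obtain ⟨B₀, hB₀0, hB₀⟩ := exists_entry_bound706 (γ₀ : Matrix (Fin 2) (Fin 2) k)
  obtain ⟨B₀', hB₀'0, hB₀'⟩ :=
    exists_entry_bound706 ((γ₀⁻¹ : GL (Fin 2) k) : Matrix (Fin 2) (Fin 2) k)
  obtain ⟨N, hN⟩ := hNF k q hk γ₀ hreg (B₀ + B₀' + 1)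
  have hk1 : IsLocalField k (q ^ (1 / 1)) := by simpa using hk
  have hinv := ind_biInv706 1 γ₀
  have hsupp := ind_finSupp706 hk 1 γ₀
  obtain ⟨κ, hκ⟩ := hEx k k q 1 1 (RingHom.id k) (RingEquiv.refl k) hk hk1 isLocalExt_refl706
    1 (ind706 1 γ₀) hinv hsupp γ₀ (by rw [twNorm_one706]; exact hreg)
  have hκ' : IsOrbSum 1 (ind706 1 γ₀) γ₀ κ := hκ
  refine ⟨N, 1, ind706 1 γ₀, κ, ?_, hinv, hsupp, ?_⟩
  · -- `κ ≠ 0`
    have hκ2 := hκ'
    unfold IsOrbSum IsTwOrbSum IsOrbSumGen at hκ2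
    simp only [glAut_refl706] at hκ2
    obtain ⟨R₀, h1, h2, h3, h4⟩ := hκ2
    obtain ⟨y', hy'R, u, hu, hyu⟩ := h3 γ₀ ⟨1, by group⟩
      (ind_ne_zero_iff706.2 (om_self706 1 γ₀))
    have hy' : y' = u * γ₀ * u⁻¹ := by rw [hyu]; group
    have hΩ : Om706 1 γ₀ y' := by
      rw [hy']
      exact om_mul706 (om_self706 1 γ₀) hu (inU_inv706 hu)
    have hregy' : IsReg y' := by
      rw [hy']
      exact isReg_conj706 hreg u
    have hpos := cIndex_pos706 hk 1 hregy'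
    have hterm : ∀ y : GL (Fin 2) k, ind706 1 γ₀ y
        * (cIndex (InU 1) (InTwCentC (RingEquiv.refl k)) y : ℂ)
        = (((if Om706 1 γ₀ y then cIndex (InU 1) (InTwCentC (RingEquiv.refl k)) y else 0 : ℕ)
          : ℕ) : ℂ) := by
      intro y
      unfold ind706
      by_cases h : Om706 1 γ₀ y
      · simp [h]
      · simp [h]
    rw [h4, Finset.sum_congr rfl (fun y _ => hterm y), ← Nat.cast_sum, Nat.cast_ne_zero]
    apply ne_of_gt
    refine lt_of_lt_of_le ?_ (Finset.single_le_sum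
      (f := fun y => if Om706 1 γ₀ y then cIndex (InU 1) (InTwCentC (RingEquiv.refl k)) y else 0)
      (fun _ _ => Nat.zero_le _) hy'R)
    simp only [hΩ, if_true]
    exact hpos
  · intro γ c hnear hc
    obtain ⟨g, a, b, ha, hb, hmat⟩ := hN γ hnear
    have hM1 : (WithZero.exp (-(B₀ + B₀' + 1)) : Γ₀) < 1 := by
      rw [← WithZero.exp_zero]
      exact WithZero.exp_lt_exp.2 (by omega)
    have hvb : Valued.v b = 1 := by
      have e : b = 1 + (b - 1) := by ring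
      rw [e]
      exact Valuation.map_one_add_of_lt _ (lt_of_le_of_lt hb hM1)
    have hb0 : b ≠ 0 := by
      intro h
      rw [h, map_zero] at hvb
      exact zero_ne_one hvb
    -- the perturbation is small
    have hsmall : ∀ (w : Matrix (Fin 2) (Fin 2) k),
        (∀ i j, Valued.v (w i j) ≤ WithZero.exp B₀) → ∀ i j,
        Valued.v (a * (1 : Matrix (Fin 2) (Fin 2) k) i j + (b - 1) * w i j)
          ≤ WithZero.exp (-(B₀' + 1)) := by
      intro w hw i j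
      refine v_add_le125 ?_ ?_
      · have := v_mul_le125 ha (v_one_entry125 (k := k) i j)
        rw [mul_one] at this
        exact this.trans (WithZero.exp_le_exp.2 (by omega))
      · have := v_mul_le125 hb (hw i j)
        rw [← WithZero.exp_add] at this
        exact this.trans (WithZero.exp_le_exp.2 (by omega))
    have hf : ∀ y z : GL (Fin 2) k, (∃ x : GL (Fin 2) k, y = x⁻¹ * γ₀ * x) →
        (z : Matrix (Fin 2) (Fin 2) k)
          = a • (1 : Matrix (Fin 2) (Fin 2) k) + b • (y : Matrix (Fin 2) (Fin 2) k) →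
        ind706 1 γ₀ z = ind706 1 γ₀ y := by
      intro y z _ hz
      have hzij : ∀ i j, (z : Matrix (Fin 2) (Fin 2) k) i j
          = a * (1 : Matrix (Fin 2) (Fin 2) k) i j
            + b * (y : Matrix (Fin 2) (Fin 2) k) i j := by
        intro i j
        rw [hz]
        simp [Matrix.add_apply, Matrix.smul_apply]
      apply ind_eq_of_iff706
      constructor
      · -- `z ∈ Ω → y ∈ Ω`
        intro hzΩ
        refine om_stable706 (le_refl 1) hB₀' (L := B₀' + 1) (by push_cast; omega) hzΩ ?_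
        intro i j
        have e : (y : Matrix (Fin 2) (Fin 2) k) i j - (z : Matrix (Fin 2) (Fin 2) k) i j
            = b⁻¹ * -(a * (1 : Matrix (Fin 2) (Fin 2) k) i j
              + (b - 1) * (z : Matrix (Fin 2) (Fin 2) k) i j) := by
          rw [hzij i j]
          field_simp
          ring
        rw [e, map_mul, map_inv₀, hvb, inv_one, one_mul, Valuation.map_neg]
        exact hsmall _ (om_entry706 hB₀ hzΩ) i j
      · -- `y ∈ Ω → z ∈ Ω`
        intro hyΩ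
        refine om_stable706 (le_refl 1) hB₀' (L := B₀' + 1) (by push_cast; omega) hyΩ ?_
        intro i j
        have e : (z : Matrix (Fin 2) (Fin 2) k) i j - (y : Matrix (Fin 2) (Fin 2) k) i j
            = a * (1 : Matrix (Fin 2) (Fin 2) k) i j
              + (b - 1) * (y : Matrix (Fin 2) (Fin 2) k) i j := by
          rw [hzij i j]
          ring
        rw [e]
        exact hsmall _ (om_entry706 hB₀ hyΩ) i j
    have h1 : IsOrbSum 1 (ind706 1 γ₀) (g⁻¹ * γ * g) κ := transport706 hb0 hmat hf hκ'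
    have h2 : IsOrbSum 1 (ind706 1 γ₀) γ κ := by
      have := isOrbSum_conj706 h1 g
      have e : g * (g⁻¹ * γ * g) * g⁻¹ = γ := by group
      rwa [e] at this
    exact hUq k (RingEquiv.refl k) (fun _ => rfl) 1 (ind706 1 γ₀) hinv γ c κ hc h2

end Fermat.Agent.LT.T6.H706

end
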