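import Fermat.Agent.LT.T6.H179.LocRegSpec
import Fermat.Agent.LT.T6.H125.Cut

/-!
# Row LT, tower T6, leaf T6.18f.5 `OrdC179` (helper706): basic lemmas

OFF-MAIN.  Mathlib + `T6/Spec.lean` (helper22) + `H783/BadSpec.lean` (helper783)
+ `H179/LocRegSpec.lean` (helper179) + `H125/Cut.lean` (helper125), all byte-identical copies.

* the predicates `InU n` are groups (`inU_one706`, `inU_inv706`, `inU_mul706`);
* `inU_of_sub_one706`: `g ≡ 1` modulo `ϖ^m`, `m ≥ 1`, implies `g ∈ U(m)`;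
* `exists_fin_cosets706`: the elements of `GL₂(k)` with entries bounded by `exp B` and
  determinant of valuation at least `exp (-D)` lie in finitely many cosets `x U(M)`.
-/

set_option autoImplicit false

open scoped Matrix

noncomputable section

namespace Fermat.Agent.LT.T6.H706

open Fermat.Agent.LT.T6 Fermat.Agent.LT.T6.H783 Fermat.Agent.LT.T6.H125
  Fermat.Agent.LT.T6.H179

variable {k : Type} [Field k] [Valued k Γ₀]

/-! ## The automorphism for `s = 1` -/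

omit [Valued k Γ₀] in
theorem glAut_refl706 (x : GL (Fin 2) k) : glAut (RingEquiv.refl k) x = x := by
  simp [glAut]

/-! ## Bounds in the value group -/

theorem exists_exp_ge706 (x : Γ₀) : ∃ B : ℤ, x ≤ WithZero.exp B := by
  by_cases h : x = 0
  · exact ⟨0, by rw [h]; exact zero_le⟩
  · exact ⟨WithZero.log x, (WithZero.exp_log h).ge⟩

theorem exists_entry_bound706 (A : Matrix (Fin 2) (Fin 2) k) :
    ∃ B : ℤ, 0 ≤ B ∧ ∀ i j, Valued.v (A i j) ≤ WithZero.exp B := by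
  obtain ⟨B00, h00⟩ := exists_exp_ge706 (Valued.v (A 0 0))
  obtain ⟨B01, h01⟩ := exists_exp_ge706 (Valued.v (A 0 1))
  obtain ⟨B10, h10⟩ := exists_exp_ge706 (Valued.v (A 1 0))
  obtain ⟨B11, h11⟩ := exists_exp_ge706 (Valued.v (A 1 1))
  refine ⟨max 0 (max (max B00 B01) (max B10 B11)), le_max_left _ _, fun i j => ?_⟩
  fin_cases i <;> fin_cases j
  · exact h00.trans (WithZero.exp_le_exp.2 (by simp))
  · exact h01.trans (WithZero.exp_le_exp.2 (by simp))
  · exact h10.trans (WithZero.exp_le_exp.2 (by simp))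
  · exact h11.trans (WithZero.exp_le_exp.2 (by simp))

/-! ## The groups `U(n)` -/

theorem inU_one706 (n : ℕ) : InU n (1 : GL (Fin 2) k) := by
  intro i j
  simp

theorem inU_inv706 {n : ℕ} {g : GL (Fin 2) k} (h : InU n g) : InU n g⁻¹ := by
  intro i j
  refine ⟨(h i j).2, ?_⟩
  rw [inv_inv]
  exact (h i j).1

theorem mul_sub_one_entry706 {ε : Γ₀} {a b : GL (Fin 2) k}
    (ha : ∀ i j, Valued.v ((a : Matrix (Fin 2) (Fin 2) k) i j
      - (1 : Matrix (Fin 2) (Fin 2) k) i j) ≤ ε)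
    (hb : ∀ i j, Valued.v ((b : Matrix (Fin 2) (Fin 2) k) i j
      - (1 : Matrix (Fin 2) (Fin 2) k) i j) ≤ ε)
    (hb1 : ∀ i j, Valued.v ((b : Matrix (Fin 2) (Fin 2) k) i j) ≤ 1) (i j : Fin 2) :
    Valued.v (((a * b : GL (Fin 2) k) : Matrix (Fin 2) (Fin 2) k) i j
      - (1 : Matrix (Fin 2) (Fin 2) k) i j) ≤ ε := by
  have h1 : ((a * b : GL (Fin 2) k) : Matrix (Fin 2) (Fin 2) k) - 1
      = ((a : Matrix (Fin 2) (Fin 2) k) - 1) * (b : Matrix (Fin 2) (Fin 2) k)
        + ((b : Matrix (Fin 2) (Fin 2) k) - 1) := by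
    rw [Matrix.GeneralLinearGroup.coe_mul]
    noncomm_ring
  have h2 : ((a * b : GL (Fin 2) k) : Matrix (Fin 2) (Fin 2) k) i j
      - (1 : Matrix (Fin 2) (Fin 2) k) i j
      = (((a : Matrix (Fin 2) (Fin 2) k) - 1) * (b : Matrix (Fin 2) (Fin 2) k)) i j
        + ((b : Matrix (Fin 2) (Fin 2) k) - 1) i j := by
    rw [← Matrix.sub_apply, h1, Matrix.add_apply]
  rw [h2]
  refine v_add_le125 ?_ (hb i j)
  have := v_mul_entry125 (A := (a : Matrix (Fin 2) (Fin 2) k) - 1)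
    (B := (b : Matrix (Fin 2) (Fin 2) k)) (a := ε) (b := 1) ha hb1 i j
  rwa [mul_one] at this

theorem inU_mul706 {n : ℕ} {g h : GL (Fin 2) k} (hg : InU n g) (hh : InU n h) :
    InU n (g * h) := by
  intro i j
  refine ⟨mul_sub_one_entry706 (fun i j => (hg i j).1) (fun i j => (hh i j).1)
    (inU_entry125 hh) i j, ?_⟩
  rw [mul_inv_rev]
  exact mul_sub_one_entry706 (fun i j => (hh i j).2) (fun i j => (hg i j).2)
    (inU_inv_entry125 hg) i j

/-- `det u` is a unit for `u ∈ U(n)`. -/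
theorem inU_det706 {n : ℕ} {u : GL (Fin 2) k} (h : InU n u) :
    Valued.v (u : Matrix (Fin 2) (Fin 2) k).det = 1 := by
  have h1 := inU_det_le_one125 h
  have h2 := inU_det_le_one125 (inU_inv706 h)
  have h3 : (u : Matrix (Fin 2) (Fin 2) k).det
      * ((u⁻¹ : GL (Fin 2) k) : Matrix (Fin 2) (Fin 2) k).det = 1 := by
    rw [← Matrix.det_mul, ← Matrix.GeneralLinearGroup.coe_mul, mul_inv_cancel]
    simp
  have h4 : Valued.v (u : Matrix (Fin 2) (Fin 2) k).det
      * Valued.v ((u⁻¹ : GL (Fin 2) k) : Matrix (Fin 2) (Fin 2) k).det = 1 := by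
    rw [← map_mul, h3, map_one]
  refine le_antisymm h1 ?_
  calc (1 : Γ₀) = Valued.v (u : Matrix (Fin 2) (Fin 2) k).det
        * Valued.v ((u⁻¹ : GL (Fin 2) k) : Matrix (Fin 2) (Fin 2) k).det := h4.symm
    _ ≤ Valued.v (u : Matrix (Fin 2) (Fin 2) k).det * 1 := mul_le_mul' le_rfl h2
    _ = Valued.v (u : Matrix (Fin 2) (Fin 2) k).det := mul_one _

/-! ## Inverses of bounded matrices -/

omit [Valued k Γ₀] in
theorem det_ne_zero706 (w : GL (Fin 2) k) : (w : Matrix (Fin 2) (Fin 2) k).det ≠ 0 := by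
  have h3 : (w : Matrix (Fin 2) (Fin 2) k).det
      * ((w⁻¹ : GL (Fin 2) k) : Matrix (Fin 2) (Fin 2) k).det = 1 := by
    rw [← Matrix.det_mul, ← Matrix.GeneralLinearGroup.coe_mul, mul_inv_cancel]
    simp
  intro h
  rw [h, zero_mul] at h3
  exact zero_ne_one h3

/-- The entries of the inverse: `w⁻¹ = (det w)⁻¹ adj w`. -/
theorem inv_entry706 (w : GL (Fin 2) k) (i j : Fin 2) :
    ∃ i' j' : Fin 2, Valued.v (((w⁻¹ : GL (Fin 2) k) : Matrix (Fin 2) (Fin 2) k) i j)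
      = (Valued.v (w : Matrix (Fin 2) (Fin 2) k).det)⁻¹
        * Valued.v ((w : Matrix (Fin 2) (Fin 2) k) i' j') := by
  rw [Matrix.GeneralLinearGroup.coe_inv, Matrix.inv_def, Ring.inverse_eq_inv',
    Matrix.adjugate_fin_two]
  fin_cases i <;> fin_cases j
  · exact ⟨1, 1, by simp⟩
  · exact ⟨0, 1, by simp⟩
  · exact ⟨1, 0, by simp⟩
  · exact ⟨0, 0, by simp⟩

theorem inv_entry_le706 {B D : ℤ} {w : GL (Fin 2) k}
    (hB : ∀ i j, Valued.v ((w : Matrix (Fin 2) (Fin 2) k) i j) ≤ WithZero.exp B)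
    (hD : WithZero.exp (-D) ≤ Valued.v (w : Matrix (Fin 2) (Fin 2) k).det) (i j : Fin 2) :
    Valued.v (((w⁻¹ : GL (Fin 2) k) : Matrix (Fin 2) (Fin 2) k) i j)
      ≤ WithZero.exp (D + B) := by
  obtain ⟨i', j', h⟩ := inv_entry706 w i j
  rw [h, WithZero.exp_add]
  refine mul_le_mul' ?_ (hB i' j')
  have h1 : (Valued.v (w : Matrix (Fin 2) (Fin 2) k).det)⁻¹
      ≤ (WithZero.exp (-D) : Γ₀)⁻¹ := inv_anti₀ WithZero.exp_pos hD
  rwa [WithZero.exp_neg, inv_inv] at h1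

/-- `g ≡ 1` modulo `ϖ^m`, `m ≥ 1`, implies `g ∈ U(m)`. -/
theorem inU_of_sub_one706 {m : ℕ} (hm : 1 ≤ m) {g : GL (Fin 2) k}
    (h : ∀ i j, Valued.v ((g : Matrix (Fin 2) (Fin 2) k) i j
      - (1 : Matrix (Fin 2) (Fin 2) k) i j) ≤ WithZero.exp (-(m : ℤ))) : InU m g := by
  set ε : Γ₀ := WithZero.exp (-(m : ℤ)) with hε
  have hε1 : ε < 1 := by
    rw [hε, ← WithZero.exp_zero]
    exact WithZero.exp_lt_exp.2 (by omega)
  have h00 : Valued.v ((g : Matrix (Fin 2) (Fin 2) k) 0 0 - 1) ≤ ε := by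
    have := h 0 0
    rwa [Matrix.one_apply_eq] at this
  have h11 : Valued.v ((g : Matrix (Fin 2) (Fin 2) k) 1 1 - 1) ≤ ε := by
    have := h 1 1
    rwa [Matrix.one_apply_eq] at this
  have h01 : Valued.v ((g : Matrix (Fin 2) (Fin 2) k) 0 1) ≤ ε := by
    have := h 0 1
    rwa [Matrix.one_apply_ne (by decide), sub_zero] at this
  have h10 : Valued.v ((g : Matrix (Fin 2) (Fin 2) k) 1 0) ≤ ε := by
    have := h 1 0
    rwa [Matrix.one_apply_ne (by decide), sub_zero] at this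
  have hεε : ε * ε ≤ ε := by
    calc ε * ε ≤ ε * 1 := mul_le_mul' le_rfl hε1.le
      _ = ε := mul_one ε
  have hd : (g : Matrix (Fin 2) (Fin 2) k).det - 1
      = (((g : Matrix (Fin 2) (Fin 2) k) 0 0 - 1) + ((g : Matrix (Fin 2) (Fin 2) k) 1 1 - 1))
        + (((g : Matrix (Fin 2) (Fin 2) k) 0 0 - 1) * ((g : Matrix (Fin 2) (Fin 2) k) 1 1 - 1)
          - (g : Matrix (Fin 2) (Fin 2) k) 0 1 * (g : Matrix (Fin 2) (Fin 2) k) 1 0) := by
    rw [Matrix.det_fin_two]
    ring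
  have hdet1 : Valued.v ((g : Matrix (Fin 2) (Fin 2) k).det - 1) ≤ ε := by
    rw [hd]
    exact v_add_le125 (v_add_le125 h00 h11)
      (v_sub_le125 ((v_mul_le125 h00 h11).trans hεε) ((v_mul_le125 h01 h10).trans hεε))
  have hdet : Valued.v (g : Matrix (Fin 2) (Fin 2) k).det = 1 := by
    have h2 : (g : Matrix (Fin 2) (Fin 2) k).det
        = 1 + ((g : Matrix (Fin 2) (Fin 2) k).det - 1) := by ring
    rw [h2]
    exact Valuation.map_one_add_of_lt _ (lt_of_le_of_lt hdet1 hε1)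
  have hd0 : (g : Matrix (Fin 2) (Fin 2) k).det ≠ 0 := det_ne_zero706 g
  intro i j
  refine ⟨h i j, ?_⟩
  rw [Matrix.GeneralLinearGroup.coe_inv, Matrix.inv_def, Ring.inverse_eq_inv',
    Matrix.adjugate_fin_two]
  fin_cases i <;> fin_cases j
  · have e : ((g : Matrix (Fin 2) (Fin 2) k).det)⁻¹ * (g : Matrix (Fin 2) (Fin 2) k) 1 1 - 1
        = ((g : Matrix (Fin 2) (Fin 2) k).det)⁻¹
          * (((g : Matrix (Fin 2) (Fin 2) k) 1 1 - 1)
            - ((g : Matrix (Fin 2) (Fin 2) k).det - 1)) := by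
      field_simp
      ring
    simp only [Fin.zero_eta, Fin.isValue, Matrix.smul_apply, Matrix.of_apply,
      Matrix.cons_val', Matrix.cons_val_zero, Matrix.cons_val_fin_one, smul_eq_mul,
      Matrix.one_apply_eq]
    rw [e, map_mul, map_inv₀, hdet, inv_one, one_mul]
    exact v_sub_le125 h11 hdet1
  · simp only [Fin.zero_eta, Fin.isValue, Fin.mk_one, Matrix.smul_apply, Matrix.of_apply,
      Matrix.cons_val', Matrix.cons_val_one, Matrix.cons_val_zero, Matrix.cons_val_fin_one,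
      smul_eq_mul, ne_eq, zero_ne_one, not_false_eq_true, Matrix.one_apply_ne, sub_zero]
    rw [map_mul, map_inv₀, hdet, inv_one, one_mul, Valuation.map_neg]
    exact h01
  · simp only [Fin.mk_one, Fin.isValue, Fin.zero_eta, Matrix.smul_apply, Matrix.of_apply,
      Matrix.cons_val', Matrix.cons_val_zero, Matrix.cons_val_one, Matrix.cons_val_fin_one,
      smul_eq_mul, ne_eq, one_ne_zero, not_false_eq_true, Matrix.one_apply_ne, sub_zero]
    rw [map_mul, map_inv₀, hdet, inv_one, one_mul, Valuation.map_neg]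
    exact h10
  · have e : ((g : Matrix (Fin 2) (Fin 2) k).det)⁻¹ * (g : Matrix (Fin 2) (Fin 2) k) 0 0 - 1
        = ((g : Matrix (Fin 2) (Fin 2) k).det)⁻¹
          * (((g : Matrix (Fin 2) (Fin 2) k) 0 0 - 1)
            - ((g : Matrix (Fin 2) (Fin 2) k).det - 1)) := by
      field_simp
      ring
    simp only [Fin.mk_one, Fin.isValue, Matrix.smul_apply, Matrix.of_apply,
      Matrix.cons_val', Matrix.cons_val_one, Matrix.cons_val_fin_one, smul_eq_mul,
      Matrix.one_apply_eq]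
    rw [e, map_mul, map_inv₀, hdet, inv_one, one_mul]
    exact v_sub_le125 h00 hdet1

/-! ## Finitely many cosets in a bounded set -/

/-- A finite set which approximates every element of valuation at most `exp B` modulo
`exp (-L)`. -/
theorem approxB706 {q : ℕ} (hk : IsLocalField k q) (B L : ℤ) :
    ∃ S : Finset k, ∀ z : k, Valued.v z ≤ WithZero.exp B →
      ∃ s ∈ S, Valued.v (z - s) ≤ WithZero.exp (-L) := by
  classical
  obtain ⟨ϖ, hϖ⟩ := hk.unif
  have hϖ0 : ϖ ≠ 0 := by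
    intro h
    rw [h, map_zero] at hϖ
    exact WithZero.exp_ne_zero hϖ.symm
  have hpow : ∀ j : ℤ, Valued.v (ϖ ^ j) = WithZero.exp (-j) := by
    intro j
    rw [map_zpow₀, hϖ, ← WithZero.exp_zsmul]
    congr 1
    simp
  obtain ⟨S₀, hS₀⟩ := approx125 hk (B + L).toNat
  refine ⟨S₀.image (fun s => s * ϖ ^ (-B)), fun z hz => ?_⟩
  have hz' : Valued.v (z * ϖ ^ B) ≤ 1 := by
    rw [map_mul, hpow]
    calc Valued.v z * WithZero.exp (-B) ≤ WithZero.exp B * WithZero.exp (-B) :=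
          mul_le_mul' hz le_rfl
      _ = 1 := by rw [← WithZero.exp_add, add_neg_cancel, WithZero.exp_zero]
  obtain ⟨s, hs, hzs⟩ := hS₀ _ hz'
  refine ⟨s * ϖ ^ (-B), Finset.mem_image.2 ⟨s, hs, rfl⟩, ?_⟩
  have h1 : z - s * ϖ ^ (-B) = (z * ϖ ^ B - s) * ϖ ^ (-B) := by
    rw [sub_mul, mul_assoc, ← zpow_add₀ hϖ0, add_neg_cancel, zpow_zero, mul_one]
  rw [h1, map_mul, hpow, neg_neg]
  calc Valued.v (z * ϖ ^ B - s) * WithZero.exp B
      ≤ WithZero.exp (-(((B + L).toNat : ℕ) : ℤ)) * WithZero.exp B := mul_le_mul' hzs le_rfl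
    _ = WithZero.exp (-(((B + L).toNat : ℕ) : ℤ) + B) := (WithZero.exp_add _ _).symm
    _ ≤ WithZero.exp (-L) := by
        refine WithZero.exp_le_exp.2 ?_
        have := Int.self_le_toNat (B + L)
        omega

/-- Two elements of a bounded set which agree modulo `ϖ^L`, `L` large, differ by an element of
`U(M)`. -/
theorem inU_of_close_bdd706 {B D L : ℤ} {M : ℕ} (hL : D + B + M ≤ L) {w w' : GL (Fin 2) k}
    (hw : ∀ i j, Valued.v ((w : Matrix (Fin 2) (Fin 2) k) i j) ≤ WithZero.exp B)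
    (hwD : WithZero.exp (-D) ≤ Valued.v (w : Matrix (Fin 2) (Fin 2) k).det)
    (hw' : ∀ i j, Valued.v ((w' : Matrix (Fin 2) (Fin 2) k) i j) ≤ WithZero.exp B)
    (hwD' : WithZero.exp (-D) ≤ Valued.v (w' : Matrix (Fin 2) (Fin 2) k).det)
    (h : ∀ i j, Valued.v ((w : Matrix (Fin 2) (Fin 2) k) i j
      - (w' : Matrix (Fin 2) (Fin 2) k) i j) ≤ WithZero.exp (-L)) :
    InU M (w⁻¹ * w') := by
  have key : ∀ a b : GL (Fin 2) k,
      (∀ i j, Valued.v ((a : Matrix (Fin 2) (Fin 2) k) i j) ≤ WithZero.exp B) →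
      WithZero.exp (-D) ≤ Valued.v (a : Matrix (Fin 2) (Fin 2) k).det →
      (∀ i j, Valued.v ((a : Matrix (Fin 2) (Fin 2) k) i j
        - (b : Matrix (Fin 2) (Fin 2) k) i j) ≤ WithZero.exp (-L)) →
      ∀ i j, Valued.v (((a⁻¹ * b : GL (Fin 2) k) : Matrix (Fin 2) (Fin 2) k) i j
        - (1 : Matrix (Fin 2) (Fin 2) k) i j) ≤ WithZero.exp (-(M : ℤ)) := by
    intro a b ha haD hab i j
    have h1 : ((a⁻¹ * b : GL (Fin 2) k) : Matrix (Fin 2) (Fin 2) k) - 1
        = ((a⁻¹ : GL (Fin 2) k) : Matrix (Fin 2) (Fin 2) k)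
          * ((b : Matrix (Fin 2) (Fin 2) k) - (a : Matrix (Fin 2) (Fin 2) k)) := by
      rw [mul_sub, ← Units.val_mul, ← Units.val_mul, inv_mul_cancel, Units.val_one]
    have h2 : ∀ i j, Valued.v (((b : Matrix (Fin 2) (Fin 2) k)
        - (a : Matrix (Fin 2) (Fin 2) k)) i j) ≤ WithZero.exp (-L) := by
      intro i j
      rw [Matrix.sub_apply, Valuation.map_sub_swap]
      exact hab i j
    have h3 := v_mul_entry125 (inv_entry_le706 ha haD) h2 i j
    rw [← h1, Matrix.sub_apply] at h3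
    refine h3.trans ?_
    rw [← WithZero.exp_add]
    exact WithZero.exp_le_exp.2 (by omega)
  intro i j
  refine ⟨key w w' hw hwD h i j, ?_⟩
  have h0 : (w⁻¹ * w')⁻¹ = w'⁻¹ * w := by group
  rw [h0]
  refine key w' w hw' hwD' (fun i j => ?_) i j
  rw [Valuation.map_sub_swap]
  exact h i j

/-- **Finitely many cosets.**  The elements of `GL₂(k)` with entries bounded by `exp B` and
determinant of valuation at least `exp (-D)` lie in finitely many cosets `x U(M)`. -/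
theorem exists_fin_cosets706 {q : ℕ} (hk : IsLocalField k q) (B D : ℤ) (M : ℕ) :
    ∃ F : Finset (GL (Fin 2) k), ∀ g : GL (Fin 2) k,
      (∀ i j, Valued.v ((g : Matrix (Fin 2) (Fin 2) k) i j) ≤ WithZero.exp B) →
      WithZero.exp (-D) ≤ Valued.v (g : Matrix (Fin 2) (Fin 2) k).det →
      ∃ x ∈ F, ∃ u : GL (Fin 2) k, InU M u ∧ g = x * u := by
  classical
  obtain ⟨S, hS⟩ := approxB706 hk B (D + B + M)
  let I : Finset (Fin 2 → Fin 2 → k) :=
    Fintype.piFinset (fun _ => Fintype.piFinset (fun _ => S))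
  let ok : (Fin 2 → Fin 2 → k) → GL (Fin 2) k → Prop := fun r w =>
    (∀ i j, Valued.v ((w : Matrix (Fin 2) (Fin 2) k) i j) ≤ WithZero.exp B) ∧
    WithZero.exp (-D) ≤ Valued.v (w : Matrix (Fin 2) (Fin 2) k).det ∧
    ∀ i j, Valued.v ((w : Matrix (Fin 2) (Fin 2) k) i j - r i j)
      ≤ WithZero.exp (-(D + B + M))
  let rep : (Fin 2 → Fin 2 → k) → GL (Fin 2) k := fun r =>
    if h : ∃ w, ok r w then Classical.choose h else 1
  refine ⟨I.image rep, fun g hg hgD => ?_⟩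
  have hex : ∀ i j, ∃ s ∈ S, Valued.v ((g : Matrix (Fin 2) (Fin 2) k) i j - s)
      ≤ WithZero.exp (-(D + B + M)) := fun i j => hS _ (hg i j)
  choose r hrS hr using hex
  have hrI : r ∈ I := by
    simp only [I, Fintype.mem_piFinset]
    exact fun i j => hrS i j
  have hok : ∃ w₀, ok r w₀ := ⟨g, hg, hgD, hr⟩
  have hrep : rep r = Classical.choose hok := dif_pos hok
  obtain ⟨hw₀, hw₀D, hw₀r⟩ := Classical.choose_spec hok
  refine ⟨Classical.choose hok, Finset.mem_image.2 ⟨r, hrI, hrep⟩,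
    (Classical.choose hok)⁻¹ * g, ?_, ?_⟩
  · apply inU_of_close_bdd706 (le_refl (D + B + (M : ℤ))) hw₀ hw₀D hg hgD
    intro i j
    have h1 : ((Classical.choose hok : GL (Fin 2) k) : Matrix (Fin 2) (Fin 2) k) i j
        - (g : Matrix (Fin 2) (Fin 2) k) i j
        = (((Classical.choose hok : GL (Fin 2) k) : Matrix (Fin 2) (Fin 2) k) i j - r i j)
          - ((g : Matrix (Fin 2) (Fin 2) k) i j - r i j) := by ring
    rw [h1]
    exact v_sub_le125 (hw₀r i j) (hr i j)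
  · group

/-- The cosets `t U(M)` of the elements of a set contained in a bounded set are finitely many. -/
theorem finite_cosets706 {q : ℕ} (hk : IsLocalField k q) (B D : ℤ) (M : ℕ)
    (P : GL (Fin 2) k → Prop)
    (hP : ∀ t, P t → (∀ i j, Valued.v ((t : Matrix (Fin 2) (Fin 2) k) i j) ≤ WithZero.exp B) ∧
      WithZero.exp (-D) ≤ Valued.v (t : Matrix (Fin 2) (Fin 2) k).det) :
    Set.Finite {c : Set (GL (Fin 2) k) | ∃ t : GL (Fin 2) k, P t ∧
      c = {g : GL (Fin 2) k | ∃ u : GL (Fin 2) k, InU M u ∧ g = t * u}} := by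
  classical
  obtain ⟨F, hF⟩ := exists_fin_cosets706 hk B D M
  refine Set.Finite.subset
    (Finset.finite_toSet (F.image fun x => {g : GL (Fin 2) k | ∃ u : GL (Fin 2) k,
      InU M u ∧ g = x * u})) ?_
  rintro c ⟨t, ht, rfl⟩
  obtain ⟨x, hx, u, hu, rfl⟩ := hF t (hP t ht).1 (hP t ht).2
  rw [Finset.mem_coe, Finset.mem_image]
  refine ⟨x, hx, ?_⟩
  ext g
  constructor
  · rintro ⟨u', hu', rfl⟩
    exact ⟨u⁻¹ * u', inU_mul706 (inU_inv706 hu) hu', by group⟩
  · rintro ⟨u', hu', rfl⟩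
    exact ⟨u * u', inU_mul706 hu hu', by group⟩

end Fermat.Agent.LT.T6.H706

end
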