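import Fermat.Agent.LT.T6.H706.OrdBasic

/-!
# Row LT, tower T6, leaf T6.18f.5 `OrdC179` (helper706): the centraliser of a regular element

OFF-MAIN.

* `cent_eq706`: a matrix commuting with a regular `y ∈ GL₂(k)` is `α + β y`;
* `cent_bound706`: the maximal compact subgroup `T_y^c` of the centraliser of a regular `y` is
  bounded (`disc t = β² disc y`, `2 α = tr t - β tr y`);
* `cIndex_pos706`: the index `[T_y^c : T_y^c ∩ U(m)]` of `T6/Spec.lean` is FINITE and `≥ 1`.
-/

set_option autoImplicit false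

open scoped Matrix

noncomputable section

namespace Fermat.Agent.LT.T6.H706

open Fermat.Agent.LT.T6 Fermat.Agent.LT.T6.H783 Fermat.Agent.LT.T6.H125
  Fermat.Agent.LT.T6.H179

variable {k : Type} [Field k] [Valued k Γ₀]

/-! ## The centraliser of a regular matrix -/

omit [Valued k Γ₀] in
/-- A `2 × 2` matrix commuting with a matrix of non-zero discriminant is a polynomial in it. -/
theorem cent_eq_mat706 {Y T : Matrix (Fin 2) (Fin 2) k}
    (hreg : Y.trace ^ 2 - 4 * Y.det ≠ 0) (hc : T * Y = Y * T) :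
    ∃ α β : k, T = α • (1 : Matrix (Fin 2) (Fin 2) k) + β • Y := by
  have e00 := congrFun (congrFun hc 0) 0
  have e01 := congrFun (congrFun hc 0) 1
  have e10 := congrFun (congrFun hc 1) 0
  have e11 := congrFun (congrFun hc 1) 1
  simp only [Matrix.mul_apply, Fin.sum_univ_two] at e00 e01 e10 e11
  rw [Matrix.trace_fin_two, Matrix.det_fin_two] at hreg
  by_cases hq : Y 0 1 = 0
  · by_cases hr : Y 1 0 = 0
    · -- diagonal `Y`
      have hps : Y 0 0 - Y 1 1 ≠ 0 := by
        intro h
        apply hreg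
        rw [hq, hr]
        have : Y 0 0 = Y 1 1 := sub_eq_zero.1 h
        rw [this]
        ring
      have hb : T 0 1 = 0 := by
        rw [hq] at e01
        have : T 0 1 * (Y 0 0 - Y 1 1) = 0 := by linear_combination -e01
        rcases mul_eq_zero.1 this with h | h
        · exact h
        · exact absurd h hps
      have hcc : T 1 0 = 0 := by
        rw [hr] at e10
        have : T 1 0 * (Y 0 0 - Y 1 1) = 0 := by linear_combination e10
        rcases mul_eq_zero.1 this with h | h
        · exact h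
        · exact absurd h hps
      refine ⟨T 0 0 - (T 0 0 - T 1 1) / (Y 0 0 - Y 1 1) * Y 0 0,
        (T 0 0 - T 1 1) / (Y 0 0 - Y 1 1), ?_⟩
      ext i j
      fin_cases i <;> fin_cases j
      · simp
      · simp [hb, hq]
      · simp [hcc, hr]
      · simp only [Fin.mk_one, Fin.isValue, Matrix.add_apply, Matrix.smul_apply,
          Matrix.one_apply_eq, smul_eq_mul, mul_one]
        field_simp
        ring
    · -- `Y 1 0 ≠ 0`, `Y 0 1 = 0`
      have hb : T 0 1 = 0 := by
        rw [hq] at e00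
        have : T 0 1 * Y 1 0 = 0 := by linear_combination e00
        rcases mul_eq_zero.1 this with h | h
        · exact h
        · exact absurd h hr
      refine ⟨T 0 0 - T 1 0 / Y 1 0 * Y 0 0, T 1 0 / Y 1 0, ?_⟩
      ext i j
      fin_cases i <;> fin_cases j
      · simp
      · simp [hb, hq]
      · simp only [Fin.mk_one, Fin.isValue, Fin.zero_eta, Matrix.add_apply, Matrix.smul_apply,
          ne_eq, one_ne_zero, not_false_eq_true, Matrix.one_apply_ne, smul_eq_mul, mul_zero,
          zero_add]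
        field_simp
      · simp only [Fin.mk_one, Fin.isValue, Matrix.add_apply, Matrix.smul_apply,
          Matrix.one_apply_eq, smul_eq_mul, mul_one]
        field_simp
        linear_combination e10
  · -- `Y 0 1 ≠ 0`
    refine ⟨T 0 0 - T 0 1 / Y 0 1 * Y 0 0, T 0 1 / Y 0 1, ?_⟩
    ext i j
    fin_cases i <;> fin_cases j
    · simp
    · simp only [Fin.zero_eta, Fin.isValue, Fin.mk_one, Matrix.add_apply, Matrix.smul_apply,
        ne_eq, zero_ne_one, not_false_eq_true, Matrix.one_apply_ne, smul_eq_mul, mul_zero,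
        zero_add]
      field_simp
    · simp only [Fin.mk_one, Fin.isValue, Fin.zero_eta, Matrix.add_apply, Matrix.smul_apply,
        ne_eq, one_ne_zero, not_false_eq_true, Matrix.one_apply_ne, smul_eq_mul, mul_zero,
        zero_add]
      field_simp
      linear_combination -e00
    · simp only [Fin.mk_one, Fin.isValue, Matrix.add_apply, Matrix.smul_apply,
        Matrix.one_apply_eq, smul_eq_mul, mul_one]
      field_simp
      linear_combination -e01

omit [Valued k Γ₀] in
theorem isReg_iff706 (y : GL (Fin 2) k) :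
    IsReg y ↔ (y : Matrix (Fin 2) (Fin 2) k).trace ^ 2
      - 4 * (y : Matrix (Fin 2) (Fin 2) k).det ≠ 0 := by
  unfold IsReg disc
  exact isUnit_iff_ne_zero

omit [Valued k Γ₀] in
/-- The centraliser of a regular element. -/
theorem cent_eq706 {y t : GL (Fin 2) k} (hreg : IsReg y) (hc : t⁻¹ * y * t = y) :
    ∃ α β : k, (t : Matrix (Fin 2) (Fin 2) k)
      = α • (1 : Matrix (Fin 2) (Fin 2) k) + β • (y : Matrix (Fin 2) (Fin 2) k) := by
  have h1 : y * t = t * y := by
    calc y * t = t * (t⁻¹ * y * t) := by group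
      _ = t * y := by rw [hc]
  have h2 : (t : Matrix (Fin 2) (Fin 2) k) * (y : Matrix (Fin 2) (Fin 2) k)
      = (y : Matrix (Fin 2) (Fin 2) k) * (t : Matrix (Fin 2) (Fin 2) k) := by
    rw [← Matrix.GeneralLinearGroup.coe_mul, ← Matrix.GeneralLinearGroup.coe_mul, h1]
  exact cent_eq_mat706 ((isReg_iff706 y).1 hreg) h2

/-! ## The maximal compact subgroup of the centraliser is bounded -/

theorem sq_le_exp706 {x : Γ₀} {E : ℤ} (hE : 0 ≤ E) (h : x ^ 2 ≤ WithZero.exp E) :
    x ≤ WithZero.exp E := by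
  rcases le_or_gt x 1 with h1 | h1
  · exact h1.trans (by rw [← WithZero.exp_zero]; exact WithZero.exp_le_exp.2 hE)
  · refine le_trans ?_ h
    rw [sq]
    calc x = x * 1 := (mul_one x).symm
      _ ≤ x * x := mul_le_mul' le_rfl h1.le

theorem le_inv_of_mul_le_one706 {x a : Γ₀} (ha : a ≠ 0) (h : x * a ≤ 1) : x ≤ a⁻¹ := by
  have := (le_mul_inv_iff₀ (zero_lt_iff.2 ha)).2 h
  rwa [one_mul] at this

theorem v_two_le706 : Valued.v (2 : k) ≤ 1 := by
  have : (2 : k) = 1 + 1 := by norm_num
  rw [this]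
  exact v_add_le125 (by simp) (by simp)

theorem exists_exp_ge_nonneg706 (x : Γ₀) : ∃ B : ℤ, 0 ≤ B ∧ x ≤ WithZero.exp B := by
  obtain ⟨B, hB⟩ := exists_exp_ge706 x
  exact ⟨max 0 B, le_max_left _ _, hB.trans (WithZero.exp_le_exp.2 (le_max_right _ _))⟩

/-- The elements `t` of the centraliser of a regular `y` with integral characteristic
polynomial are bounded. -/
theorem cent_bound706 {q : ℕ} (hk : IsLocalField k q) {y : GL (Fin 2) k} (hreg : IsReg y) :
    ∃ B : ℤ, ∀ t : GL (Fin 2) k, t⁻¹ * y * t = y →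
      Valued.v (t : Matrix (Fin 2) (Fin 2) k).trace ≤ 1 →
      Valued.v (t : Matrix (Fin 2) (Fin 2) k).det = 1 →
      ∀ i j, Valued.v ((t : Matrix (Fin 2) (Fin 2) k) i j) ≤ WithZero.exp B := by
  have hchar : CharZero k := hk.char0
  have hΔ := (isReg_iff706 y).1 hreg
  set Y : Matrix (Fin 2) (Fin 2) k := (y : Matrix (Fin 2) (Fin 2) k) with hY
  set Δ : k := Y.trace ^ 2 - 4 * Y.det with hΔdef
  have hvΔ : Valued.v Δ ≠ 0 := (Valuation.ne_zero_iff _).2 hΔ
  have h2 : (2 : k) ≠ 0 := two_ne_zero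
  have hv2 : Valued.v (2 : k) ≠ 0 := (Valuation.ne_zero_iff _).2 h2
  obtain ⟨E, hE0, hE⟩ := exists_exp_ge_nonneg706 (Valued.v Δ)⁻¹
  obtain ⟨W, hW0, hW⟩ := exists_exp_ge_nonneg706 (Valued.v (2 : k))⁻¹
  obtain ⟨Ty, hTy0, hTy⟩ := exists_exp_ge_nonneg706 (Valued.v Y.trace)
  obtain ⟨By, hBy0, hBy⟩ := exists_entry_bound706 Y
  refine ⟨W + (E + Ty) + By, fun t hc htr hdet i j => ?_⟩
  obtain ⟨α, β, hT⟩ := cent_eq706 hreg hc
  rw [← hY] at hT
  set T : Matrix (Fin 2) (Fin 2) k := (t : Matrix (Fin 2) (Fin 2) k) with hTdef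
  -- the discriminant
  have hdisc : T.trace ^ 2 - 4 * T.det = β ^ 2 * Δ := by
    rw [hΔdef, hT, Matrix.trace_fin_two, Matrix.det_fin_two, Matrix.trace_fin_two,
      Matrix.det_fin_two]
    simp only [Matrix.add_apply, Matrix.smul_apply, Matrix.one_apply_eq, smul_eq_mul, mul_one,
      ne_eq, zero_ne_one, one_ne_zero, not_false_eq_true, Matrix.one_apply_ne, mul_zero,
      zero_add]
    ring
  have hv4 : Valued.v (4 : k) ≤ 1 := by
    have : (4 : k) = 2 * 2 := by norm_num
    rw [this]
    have := v_mul_le125 (v_two_le706 (k := k)) (v_two_le706 (k := k))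
    rwa [mul_one] at this
  have hvdisc : Valued.v (T.trace ^ 2 - 4 * T.det) ≤ 1 := by
    refine v_sub_le125 ?_ ?_
    · rw [map_pow]
      exact pow_le_one₀ zero_le htr
    · rw [map_mul, hdet, mul_one]
      exact hv4
  have hβ : Valued.v β ≤ WithZero.exp E := by
    apply sq_le_exp706 hE0
    rw [hdisc, map_mul, map_pow] at hvdisc
    exact (le_inv_of_mul_le_one706 hvΔ hvdisc).trans hE
  -- `α`
  have htrT : T.trace = 2 * α + β * Y.trace := by
    rw [hT, Matrix.trace_fin_two, Matrix.trace_fin_two]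
    simp only [Matrix.add_apply, Matrix.smul_apply, Matrix.one_apply_eq, smul_eq_mul, mul_one]
    ring
  have h2α : Valued.v (2 * α) ≤ WithZero.exp (E + Ty) := by
    have e : 2 * α = T.trace - β * Y.trace := by rw [htrT]; ring
    rw [e]
    refine v_sub_le125 (htr.trans ?_) ?_
    · rw [← WithZero.exp_zero]
      exact WithZero.exp_le_exp.2 (by omega)
    · rw [WithZero.exp_add]
      exact v_mul_le125 hβ hTy
  have hα : Valued.v α ≤ WithZero.exp (W + (E + Ty)) := by
    rw [map_mul, mul_comm] at h2α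
    have h3 : Valued.v α ≤ WithZero.exp (E + Ty) * (Valued.v (2 : k))⁻¹ :=
      (le_mul_inv_iff₀ (zero_lt_iff.2 hv2)).2 h2α
    refine h3.trans ?_
    rw [WithZero.exp_add W, mul_comm]
    exact mul_le_mul' hW le_rfl
  -- the entries
  have hTij : T i j = α * (1 : Matrix (Fin 2) (Fin 2) k) i j + β * Y i j := by
    rw [hT]
    simp [Matrix.add_apply, Matrix.smul_apply]
  rw [hTij]
  refine v_add_le125 ?_ ?_
  · have := v_mul_le125 hα (v_one_entry125 (k := k) i j)
    rw [mul_one] at this
    exact this.trans (WithZero.exp_le_exp.2 (by omega))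
  · have := v_mul_le125 hβ (hBy i j)
    rw [← WithZero.exp_add] at this
    exact this.trans (WithZero.exp_le_exp.2 (by omega))

/-! ## The index `[T_y^c : T_y^c ∩ U(m)]` is finite and positive -/

theorem inTwCentC_refl_iff706 (y t : GL (Fin 2) k) :
    InTwCentC (RingEquiv.refl k) y t ↔ t⁻¹ * y * t = y ∧
      Valued.v (t : Matrix (Fin 2) (Fin 2) k).trace ≤ 1 ∧
      Valued.v (t : Matrix (Fin 2) (Fin 2) k).det = 1 := by
  unfold InTwCentC InTwCent
  rw [glAut_refl706]

/-- The index `[T_y^c : T_y^c ∩ U(m)]` at a regular `y` is finite and `≥ 1`. -/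
theorem cIndex_pos706 {q : ℕ} (hk : IsLocalField k q) (m : ℕ) {y : GL (Fin 2) k}
    (hreg : IsReg y) : 0 < cIndex (InU m) (InTwCentC (RingEquiv.refl k)) y := by
  obtain ⟨B, hB⟩ := cent_bound706 hk hreg
  have hfin := finite_cosets706 hk B 0 m (fun t => InTwCentC (RingEquiv.refl k) y t)
    (fun t ht => by
      obtain ⟨h1, h2, h3⟩ := (inTwCentC_refl_iff706 y t).1 ht
      refine ⟨hB t h1 h2 h3, ?_⟩
      rw [h3, neg_zero, WithZero.exp_zero])
  unfold cIndex
  rw [Set.ncard_pos hfin]
  refine ⟨{g : GL (Fin 2) k | ∃ u : GL (Fin 2) k, InU m u ∧ g = 1 * u}, 1, ?_, rfl⟩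
  rw [inTwCentC_refl_iff706]
  refine ⟨by group, ?_, by simp⟩
  rw [Units.val_one, Matrix.trace_fin_two]
  simp only [Matrix.one_apply_eq]
  exact v_add_le125 (by simp) (by simp)

end Fermat.Agent.LT.T6.H706

end
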